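import Fermat.Agent.LT.T3.R.Spec

/-!
# Row LT, tower T3, station T3.18R, leaf R.8 `R.ProdFormRC` (helper969, registry row 2305)

OFF-MAIN.  On `LT/T3/R/Spec.lean` (helper14@15de5f60f, byte-identical copy, sha256 a528b35a...).
No hole, nothing assumed.

    prodFormRC969 (K) : Fermat.Agent.LT.T3.R.ProdFormRC K

For a totally real field `∏_w w α = |N_{K/ℚ} α|` (`InfinitePlace.prod_eq_abs_norm`,
`mult w = 1`), and `|N_{K/ℚ} a₀| = N((a₀)) = ∏_{v ∈ P} N(𝔭_v)^{e_v}`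
(`Ideal.absNorm_span_singleton`, `map_prod`, `map_pow`), hence
`∏_w √(w α) = √(∏_w w α) = ∏_{v ∈ P} N(𝔭_v)^{e_v/2}`.  Real form of `M.H793.prodFormMC793`
(helper793).
-/

set_option autoImplicit false

open IsDedekindDomain NumberField

noncomputable section

namespace Fermat.Agent.LT.T3.R.H969

open Fermat.Agent.LT.T3.M Fermat.Agent.LT.T3.R

/-- `∏_w w x = |N_{K/ℚ} x|` for a totally real field. -/
theorem prod_eq_abs_norm969 (K : Type) [Field K] [NumberField K]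
    (hR : ∀ w : InfinitePlace K, w.IsReal) (x : K) :
    ∏ w : InfinitePlace K, w x = ((|Algebra.norm ℚ x| : ℚ) : ℝ) := by
  rw [← InfinitePlace.prod_eq_abs_norm]
  refine Finset.prod_congr rfl fun w _ => ?_
  have hm : w.mult = 1 := by
    unfold InfinitePlace.mult
    rw [if_pos (hR w)]
  rw [hm, pow_one]

/-- `|N_{K/ℚ} a₀| = ∏_{v ∈ P} N(𝔭_v)^{e_v}` if `(a₀) = ∏_{v ∈ P} 𝔭_v^{e_v}`. -/
theorem abs_norm_eq_prod969 (K : Type) [Field K] [NumberField K]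
    (P : Finset (HeightOneSpectrum (𝓞 K))) (e : HeightOneSpectrum (𝓞 K) → ℕ) (a₀ : 𝓞 K)
    (hspan : Ideal.span {a₀} = ∏ v ∈ P, v.asIdeal ^ e v) :
    ((|Algebra.norm ℚ (algebraMap (𝓞 K) K a₀)| : ℚ) : ℝ)
      = ∏ v ∈ P, (Ideal.absNorm v.asIdeal : ℝ) ^ e v := by
  have h1 : Ideal.absNorm (Ideal.span {a₀}) = ∏ v ∈ P, Ideal.absNorm v.asIdeal ^ e v := by
    rw [hspan, map_prod]
    exact Finset.prod_congr rfl fun v _ => map_pow _ _ _
  rw [Ideal.absNorm_span_singleton] at h1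
  have h2 : (Algebra.norm ℚ (algebraMap (𝓞 K) K a₀) : ℚ) = ((Algebra.norm ℤ a₀ : ℤ) : ℚ) :=
    (Algebra.coe_norm_int a₀).symm
  have h3 : (|Algebra.norm ℤ a₀| : ℤ) = ((∏ v ∈ P, Ideal.absNorm v.asIdeal ^ e v : ℕ) : ℤ) := by
    rw [← h1]
    exact (Int.natCast_natAbs _).symm
  rw [h2, ← Int.cast_abs, h3]
  push_cast
  rfl

/-- **T3.18R.8 (R.8 = N.8 real, product formula).** -/
theorem prodFormRC969 (K : Type) [Field K] [NumberField K] : ProdFormRC K := by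
  intro hR 𝔫 P e a₀ α hF
  have hq : ∀ v : HeightOneSpectrum (𝓞 K), (0 : ℝ) < (Ideal.absNorm v.asIdeal : ℝ) := by
    intro v
    have hq0 : Ideal.absNorm v.asIdeal ≠ 0 := fun h =>
      v.ne_bot (Ideal.absNorm_eq_zero_iff.mp h)
    exact_mod_cast Nat.pos_of_ne_zero hq0
  -- the product of the square roots, squared
  have hS0 : 0 ≤ ∏ w : InfinitePlace K, Real.sqrt (w (α : K)) :=
    Finset.prod_nonneg fun w _ => Real.sqrt_nonneg _
  have hsq : (∏ w : InfinitePlace K, Real.sqrt (w (α : K))) ^ 2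
      = ∏ v ∈ P, (Ideal.absNorm v.asIdeal : ℝ) ^ e v := by
    rw [← Finset.prod_pow]
    have h1 : ∏ w : InfinitePlace K, Real.sqrt (w (α : K)) ^ 2
        = ∏ w : InfinitePlace K, w (α : K) :=
      Finset.prod_congr rfl fun w _ => Real.sq_sqrt (apply_nonneg w _)
    rw [h1, prod_eq_abs_norm969 K hR, hF.coe, abs_norm_eq_prod969 K P e a₀ hF.span]
  have hR0 : 0 ≤ ∏ v ∈ P, (Ideal.absNorm v.asIdeal : ℝ) ^ ((e v : ℝ) / 2) :=
    Finset.prod_nonneg fun v _ => Real.rpow_nonneg (hq v).le _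
  have hP : ∏ w : InfinitePlace K, Real.sqrt (w (α : K))
      = ∏ v ∈ P, (Ideal.absNorm v.asIdeal : ℝ) ^ ((e v : ℝ) / 2) := by
    have h1 : (∏ v ∈ P, (Ideal.absNorm v.asIdeal : ℝ) ^ ((e v : ℝ) / 2)) ^ 2
        = ∏ v ∈ P, (Ideal.absNorm v.asIdeal : ℝ) ^ e v := by
      rw [← Finset.prod_pow]
      refine Finset.prod_congr rfl fun v _ => ?_
      rw [← Real.rpow_natCast, ← Real.rpow_mul (hq v).le]
      have : (e v : ℝ) / 2 * ((2 : ℕ) : ℝ) = (e v : ℝ) := by push_cast; ring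
      rw [this, Real.rpow_natCast]
    exact (pow_left_inj₀ hS0 hR0 two_ne_zero).mp (hsq.trans h1.symm)
  rw [hP, ← Finset.prod_mul_distrib]
  refine Finset.prod_eq_one fun v _ => ?_
  rw [← Real.rpow_add (hq v)]
  have : -(e v : ℝ) / 2 + (e v : ℝ) / 2 = 0 := by ring
  rw [this, Real.rpow_zero]

end Fermat.Agent.LT.T3.R.H969

end
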